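import Mathlib
import Fermat.Agent.S28.H806.TensorDomain

/-!
# S28, route #1105 (helper868 skeleton), leaves [K1] and [K2]  (helper620)

* `mem_chartAlg_iff_isIntegralElem620` : membership in a chart algebra in terms of integrality
  with respect to the ring homomorphism `ℤ_(ℓ)[X] → ℚ((q))`, `X ↦ j^{±1}`.
* `kernelHyp_of_qep620` : the kernel hypothesis `H806.KernelHyp` from the q-expansion principle.

The statements are those of `Fermat/Agent/S28/H868/Final.lean` with `polyQ` / `chartSet` replaced
by the local copies `polyQ620` / `chartSet620` (same bodies, so definitionally equal).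
-/

set_option autoImplicit false
set_option linter.style.haveILetI false
set_option linter.unusedSectionVars false

noncomputable section

namespace Fermat.Agent.S28.H620

open ModularCurve HahnSeries ModularCurve.IgusaScheme Polynomial

/-! ### Generalities on `RingHom.IsIntegralElem` -/

/-- Integrality with respect to `g ∘ f`, `f` surjective, is integrality with respect to `g`. -/
theorem isIntegralElem_comp_surjective_iff {R S T : Type*} [CommRing R] [CommRing S] [CommRing T]
    (f : R →+* S) (hf : Function.Surjective f) (g : S →+* T) {x : T} :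
    (g.comp f).IsIntegralElem x ↔ g.IsIntegralElem x := by
  refine ⟨RingHom.IsIntegralElem.of_comp, ?_⟩
  rintro ⟨p, hp, hx⟩
  obtain ⟨q, hq, -, hqm⟩ := Polynomial.lifts_and_natDegree_eq_and_monic (f := f)
    (by rw [Polynomial.mem_lifts]; exact Polynomial.map_surjective f hf p) hp
  refine ⟨q, hqm, ?_⟩
  rw [← hq, Polynomial.eval₂_map] at hx
  exact hx

/-- Integrality over `R[g]` is integrality with respect to `R[X] → A`, `X ↦ g`. -/
theorem isIntegral_adjoin_singleton_iff {R A : Type*} [CommRing R] [CommRing A] [Algebra R A]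
    (g x : A) :
    IsIntegral (Algebra.adjoin R {g}) x ↔
      ((Polynomial.aeval (R := R) g : Polynomial R →ₐ[R] A) : Polynomial R →+* A).IsIntegralElem
        x := by
  have hmem : ∀ p : Polynomial R, Polynomial.aeval g p ∈ Algebra.adjoin R {g} := by
    intro p
    rw [Algebra.adjoin_singleton_eq_range_aeval]
    exact ⟨p, rfl⟩
  let φ : Polynomial R →+* ↥(Algebra.adjoin R {g}) :=
    ((Polynomial.aeval (R := R) g).codRestrict (Algebra.adjoin R {g}) hmem : _ →+* _)
  have hφ : Function.Surjective φ := by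
    rintro ⟨y, hy⟩
    rw [Algebra.adjoin_singleton_eq_range_aeval] at hy
    obtain ⟨p, hp⟩ := hy
    exact ⟨p, Subtype.ext hp⟩
  have hcomp : (algebraMap ↥(Algebra.adjoin R {g}) A).comp φ =
      ((Polynomial.aeval (R := R) g : Polynomial R →ₐ[R] A) : Polynomial R →+* A) := by
    ext <;> rfl
  rw [← hcomp, isIntegralElem_comp_surjective_iff φ hφ]
  rfl

/-! ### The chart homomorphisms -/

/-- `ℤ_(ℓ)[X] → ℚ((q))`, `X ↦ j` or `X ↦ 1/j` (same as `H868.polyQ`). -/
def polyQ620 (ℓ : ℕ) (inf : Bool) : Polynomial ↥(GaloisRep.ratLocalizedAt ℓ) →+* LaurentSeries ℚ :=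
  Polynomial.eval₂RingHom
    ((HahnSeries.C (Γ := ℤ) (R := ℚ)).comp (GaloisRep.ratLocalizedAt ℓ).subtype)
    (if inf then jq⁻¹ else jq)

/-- the chart sets (same as `H868.chartSet`) -/
def chartSet620 (N : ℕ) [NeZero N] (inf : Bool) : Set ↥(modularFunctionFieldFull N) :=
  if inf then {(jFull N)⁻¹} else {jFull N}

theorem isChartSet_chartSet620 (N : ℕ) [NeZero N] (inf : Bool) :
    H806.IsChartSet N (chartSet620 N inf) := by
  cases inf
  · exact H806.isChartSet_fin N
  · exact H806.isChartSet_inf N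

/-- the generator of the chart -/
def chartGen (N : ℕ) [NeZero N] (inf : Bool) : ↥(modularFunctionFieldFull N) :=
  if inf then (jFull N)⁻¹ else jFull N

lemma chartSet620_eq (N : ℕ) [NeZero N] (inf : Bool) : chartSet620 N inf = {chartGen N inf} := by
  cases inf <;> rfl

lemma coe_chartGen (N : ℕ) [NeZero N] (inf : Bool) :
    ((chartGen N inf : ↥(modularFunctionFieldFull N)) : LaurentSeries ℚ) =
      if inf then jq⁻¹ else jq := by
  cases inf <;> rfl

/-- evaluation at the chart generator, inside the function field -/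
def polyF (N : ℕ) [NeZero N] (ℓ : ℕ) [Fact ℓ.Prime] (inf : Bool) :
    Polynomial ↥(GaloisRep.ratLocalizedAt ℓ) →+* ↥(modularFunctionFieldFull N) :=
  ((Polynomial.aeval (R := ↥(GaloisRep.ratLocalizedAt ℓ)) (chartGen N inf) :
    Polynomial ↥(GaloisRep.ratLocalizedAt ℓ) →ₐ[↥(GaloisRep.ratLocalizedAt ℓ)]
      ↥(modularFunctionFieldFull N)) : _ →+* _)

lemma subtype_comp_polyF (N : ℕ) [NeZero N] (ℓ : ℕ) [Fact ℓ.Prime] (inf : Bool) :
    (SubringClass.subtype (modularFunctionFieldFull N)).comp (polyF N ℓ inf) = polyQ620 ℓ inf := by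
  apply Polynomial.ringHom_ext
  · intro a
    have h1 : polyF N ℓ inf (Polynomial.C a) =
        algebraMap ↥(GaloisRep.ratLocalizedAt ℓ) ↥(modularFunctionFieldFull N) a := by
      show Polynomial.aeval (chartGen N inf) (Polynomial.C a) = _
      rw [Polynomial.aeval_C]
    have h2 : polyQ620 ℓ inf (Polynomial.C a) = HahnSeries.C ((a : ℚ)) := by
      show Polynomial.eval₂ _ _ (Polynomial.C a) = _
      rw [Polynomial.eval₂_C]
      rfl
    rw [RingHom.comp_apply, h1, h2]
    show ((algebraMap ↥(GaloisRep.ratLocalizedAt ℓ) ↥(modularFunctionFieldFull N) a :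
      ↥(modularFunctionFieldFull N)) : LaurentSeries ℚ) = _
    rw [H806.coe_algebraMap_full, H806.incl_C]
  · have h1 : polyF N ℓ inf Polynomial.X = chartGen N inf := by
      show Polynomial.aeval (chartGen N inf) Polynomial.X = _
      rw [Polynomial.aeval_X]
    have h2 : polyQ620 ℓ inf Polynomial.X = if inf then jq⁻¹ else jq := by
      show Polynomial.eval₂ _ _ Polynomial.X = _
      rw [Polynomial.eval₂_X]
    rw [RingHom.comp_apply, h1, h2]
    exact coe_chartGen N inf

/-! ### Leaf [K1] -/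

/-- **Leaf [K1].**  Membership in a chart algebra in terms of `polyQ`. -/
theorem mem_chartAlg_iff_isIntegralElem620 (N : ℕ) [NeZero N] (ℓ : ℕ) [Fact ℓ.Prime]
    (inf : Bool) (x : ↥(modularFunctionFieldFull N)) :
    x ∈ chartAlg N ℓ (chartSet620 N inf) ↔
      (polyQ620 ℓ inf).IsIntegralElem (x : LaurentSeries ℚ) := by
  rw [mem_chartAlg_iff, chartSet620_eq, isIntegral_adjoin_singleton_iff, ← subtype_comp_polyF N ℓ]
  exact (RingHom.IsIntegralElem.map_iff
    (g := SubringClass.subtype (modularFunctionFieldFull N)) Subtype.val_injective).symm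

/-! ### Leaf [K2] -/

/-- **Leaf [K2].**  The kernel hypothesis from the q-expansion principle over `ℚ`. -/
theorem kernelHyp_of_qep620 (N : ℕ) [NeZero N] (ℓ : ℕ) [Fact ℓ.Prime] (inf : Bool)
    (h : ∀ x y : LaurentSeries ℚ, x ∈ modularFunctionFieldFull N →
      (polyQ620 ℓ inf).IsIntegralElem x → y ∈ H806.gaussRing ℓ →
      x = (ℓ : LaurentSeries ℚ) * y → (polyQ620 ℓ inf).IsIntegralElem y) :
    H806.KernelHyp ℓ N (chartSet620 N inf) (isChartSet_chartSet620 N inf) := by
  intro x hx
  have hx' : H806.gaussRed ℓ (H806.gaussSubTo ℓ N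
      ((Subalgebra.inclusion (isChartSet_chartSet620 N inf).le_gaussSub) x)) = 0 := hx
  obtain ⟨y, hy⟩ := (H806.gaussRed_eq_zero_iff ℓ _).mp hx'
  have hxy : (((x : ↥(modularFunctionFieldFull N)) : LaurentSeries ℚ)) =
      (ℓ : LaurentSeries ℚ) * (y : LaurentSeries ℚ) := by
    have h1 := congrArg (Subtype.val) hy
    have h2 : (((ℓ : ↥(H806.gaussRing ℓ)) * y : ↥(H806.gaussRing ℓ)) : LaurentSeries ℚ) =
        (ℓ : LaurentSeries ℚ) * (y : LaurentSeries ℚ) := by
      push_cast
      rfl
    exact h1.trans h2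
  have hxI : (polyQ620 ℓ inf).IsIntegralElem
      (((x : ↥(modularFunctionFieldFull N)) : LaurentSeries ℚ)) :=
    (mem_chartAlg_iff_isIntegralElem620 N ℓ inf x).mp x.2
  have hyI := h _ _ (x : ↥(modularFunctionFieldFull N)).2 hxI y.2 hxy
  have hℓ0 : (ℓ : LaurentSeries ℚ) ≠ 0 := by
    exact_mod_cast (Fact.out : ℓ.Prime).ne_zero
  -- `y` lies in the function field
  let y' : ↥(modularFunctionFieldFull N) :=
    (x : ↥(modularFunctionFieldFull N)) * ((ℓ : ↥(modularFunctionFieldFull N)))⁻¹
  have hy' : ((y' : ↥(modularFunctionFieldFull N)) : LaurentSeries ℚ) = (y : LaurentSeries ℚ) := by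
    show (((x : ↥(modularFunctionFieldFull N)) *
      ((ℓ : ↥(modularFunctionFieldFull N)))⁻¹ : ↥(modularFunctionFieldFull N)) :
        LaurentSeries ℚ) = _
    push_cast
    rw [hxy]
    field_simp
  have hy'mem : y' ∈ chartAlg N ℓ (chartSet620 N inf) := by
    rw [mem_chartAlg_iff_isIntegralElem620, hy']
    exact hyI
  refine ⟨⟨y', hy'mem⟩, ?_⟩
  apply Subtype.ext
  apply Subtype.ext
  show ((x : ↥(modularFunctionFieldFull N)) : LaurentSeries ℚ) =
    (((ℓ : ↥(GaloisRep.ratLocalizedAt ℓ)) • y' : ↥(modularFunctionFieldFull N)) : LaurentSeries ℚ)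
  rw [Algebra.smul_def, map_natCast]
  push_cast
  rw [hy', hxy]

end Fermat.Agent.S28.H620
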